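import Mathlib

/-!
# ES chain, S31 glue (part B, C): quasi-faithfulness

If `Θ : X → End_ℤ(H)` is injective (`H` a finite free `ℤ`-module, `X` torsion free) then
`Θ x ≡ 0 mod p ^ (n + c)` on `ℤ_p ⊗ H` implies `e x ∈ p ^ n X` for constants `c`, `e` (`p ∤ e`)
which do not depend on `x`, `n`.
-/

set_option autoImplicit false

namespace Fermat.Agent.ES.S31

open Module

/-- (B) an injective additive map to a finitely generated abelian group is "quasi saturated". -/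
theorem exists_quasi_saturated {X M : Type*} [AddCommGroup X] [AddCommGroup M] [Module.Finite ℤ M]
    (Θ : X →+ M) (hΘ : Function.Injective Θ) :
    ∃ a₀ : ℤ, a₀ ≠ 0 ∧ ∀ (x : X) (d : ℤ) (y : M), d ≠ 0 → Θ x = d • y →
      ∃ x' : X, a₀ • x = d • x' := by
  let M' : Submodule ℤ M := LinearMap.range Θ.toIntLinearMap
  obtain ⟨a, ha1, ha2⟩ := Submodule.annihilator_top_inter_nonZeroDivisors
    (Submodule.torsion_isTorsion (R := ℤ) (M := M ⧸ M'))
  refine ⟨a, nonZeroDivisors.ne_zero ha2, fun x d y hd hxy => ?_⟩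
  have hy : M'.mkQ y ∈ Submodule.torsion ℤ (M ⧸ M') := by
    refine ⟨⟨d, mem_nonZeroDivisors_of_ne_zero hd⟩, ?_⟩
    change d • M'.mkQ y = 0
    rw [← map_smul, ← hxy, Submodule.mkQ_apply, Submodule.Quotient.mk_eq_zero]
    exact ⟨x, rfl⟩
  have h1 : a • (⟨M'.mkQ y, hy⟩ : Submodule.torsion ℤ (M ⧸ M')) = 0 :=
    Submodule.mem_annihilator.mp ha1 _ Submodule.mem_top
  have h2 : a • y ∈ M' := by
    have h3 : M'.mkQ (a • y) = 0 := by
      rw [map_smul]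
      exact congrArg Subtype.val h1
    rwa [Submodule.mkQ_apply, Submodule.Quotient.mk_eq_zero] at h3
  obtain ⟨x', hx'⟩ := h2
  refine ⟨x', hΘ ?_⟩
  have hx'' : Θ x' = a • y := hx'
  rw [map_zsmul, map_zsmul, hxy, hx'', smul_comm]

/-- (B') the `p`-part. -/
theorem exists_quasi_saturated_prime {X M : Type*} [AddCommGroup X] [IsAddTorsionFree X]
    [AddCommGroup M] [Module.Finite ℤ M] (Θ : X →+ M) (hΘ : Function.Injective Θ)
    {p : ℕ} (hp : p.Prime) :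
    ∃ (c : ℕ) (e : ℤ), ¬ (p : ℤ) ∣ e ∧ ∀ (x : X) (n : ℕ) (y : M), Θ x = ((p : ℤ) ^ (n + c)) • y →
      ∃ x' : X, e • x = ((p : ℤ) ^ n) • x' := by
  obtain ⟨a₀, ha₀, h⟩ := exists_quasi_saturated Θ hΘ
  have hp0 : (p : ℤ) ≠ 0 := by exact_mod_cast hp.ne_zero
  have hfin : FiniteMultiplicity (p : ℤ) a₀ :=
    Int.finiteMultiplicity_iff.mpr ⟨by simpa using hp.ne_one, ha₀⟩
  obtain ⟨e, he1, he2⟩ := hfin.exists_eq_pow_mul_and_not_dvd
  refine ⟨multiplicity (p : ℤ) a₀, e, he2, fun x n y hxy => ?_⟩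
  obtain ⟨x', hx'⟩ := h x _ y (pow_ne_zero _ hp0) hxy
  refine ⟨x', ?_⟩
  set c := multiplicity (p : ℤ) a₀
  have h3 : ((p : ℤ) ^ c) • (e • x) = ((p : ℤ) ^ c) • (((p : ℤ) ^ n) • x') := by
    rw [smul_smul, smul_smul, ← he1, hx', pow_add, mul_comm]
  exact zsmul_right_injective (pow_ne_zero c hp0) h3

/-- (C) divisibility descends from `ℤ_p ⊗ H` to `H`. -/
theorem exists_eq_smul_of_isBaseChange {p : ℕ} [Fact p.Prime] {H Λ : Type*} [AddCommGroup H]
    [Module.Free ℤ H] [AddCommGroup Λ] [Module ℤ_[p] Λ] {ι : H →ₗ[ℤ] Λ}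
    (hι : IsBaseChange ℤ_[p] ι) (n : ℕ) (h : H) (w : Λ) (hw : ι h = (p : ℤ_[p]) ^ n • w) :
    ∃ h' : H, h = ((p : ℤ) ^ n) • h' := by
  classical
  let b := Module.Free.chooseBasis ℤ H
  let B := hι.basis b
  have h1 : ∀ i, ((p : ℤ) ^ n) ∣ b.repr h i := by
    intro i
    rw [← PadicInt.pow_p_dvd_int_iff]
    have h2 := hι.basis_repr_comp_apply b h i
    rw [hw, map_smul, Finsupp.smul_apply, smul_eq_mul] at h2
    exact ⟨_, h2.symm⟩
  choose c hc using h1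
  refine ⟨b.repr.symm ((b.repr h).mapRange (fun z => z / ((p : ℤ) ^ n)) (by simp)), ?_⟩
  apply b.repr.injective
  rw [map_smul, LinearEquiv.apply_symm_apply]
  ext i
  rw [Finsupp.smul_apply, Finsupp.mapRange_apply, smul_eq_mul, hc i]
  have hp0 : ((p : ℤ) ^ n) ≠ 0 := pow_ne_zero _ (by exact_mod_cast (Fact.out : p.Prime).ne_zero)
  rw [Int.mul_ediv_cancel_left _ hp0]

/-- An endomorphism of a free `ℤ`-module whose values are all divisible by `d` is divisible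
by `d`. -/
theorem exists_end_eq_smul {H : Type*} [AddCommGroup H] [Module.Free ℤ H] (f : Module.End ℤ H)
    (d : ℤ) (hf : ∀ h, ∃ h', f h = d • h') : ∃ y : Module.End ℤ H, f = d • y := by
  classical
  let b := Module.Free.chooseBasis ℤ H
  choose c hc using hf
  refine ⟨b.constr ℤ (fun i => c (b i)), ?_⟩
  apply b.ext
  intro i
  rw [LinearMap.smul_apply, Basis.constr_basis, hc]

/-- (B + C) the quasi-faithfulness statement used in the S31 glue. -/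
theorem exists_quasi_faithful {p : ℕ} [Fact p.Prime] {X : Type*} [Ring X] [IsAddTorsionFree X]
    {H Λ : Type*} [AddCommGroup H] [Module.Free ℤ H] [Module.Finite ℤ H]
    [AddCommGroup Λ] [Module ℤ_[p] Λ] {ι : H →ₗ[ℤ] Λ} (hι : IsBaseChange ℤ_[p] ι)
    (Θ : X →+* Module.End ℤ H) (hΘ : Function.Injective Θ)
    (ΘΛ : X →+* Module.End ℤ_[p] Λ) (hΘΛ : ∀ x h, ΘΛ x (ι h) = ι (Θ x h)) :
    ∃ (c : ℕ) (e : ℤ), ¬ (p : ℤ) ∣ e ∧ ∀ (x : X) (n : ℕ),
      (∀ v : Λ, ∃ w : Λ, ΘΛ x v = (p : ℤ_[p]) ^ (n + c) • w) →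
      ∃ x' : X, e • x = ((p : ℤ) ^ n) • x' := by
  obtain ⟨c, e, he, h⟩ := exists_quasi_saturated_prime (Θ : X →+ Module.End ℤ H) hΘ
    (Fact.out : p.Prime)
  refine ⟨c, e, he, fun x n hx => ?_⟩
  obtain ⟨y, hy⟩ := exists_end_eq_smul (Θ x) ((p : ℤ) ^ (n + c)) (fun h => by
    obtain ⟨w, hw⟩ := hx (ι h)
    rw [hΘΛ] at hw
    exact exists_eq_smul_of_isBaseChange hι _ _ w hw)
  exact h x n y hy

end Fermat.Agent.ES.S31
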