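import Mathlib

/-!
# ES chain, S31 glue (part A): Lucas sequences
-/

set_option autoImplicit false

namespace Fermat.Agent.ES.S31

open Module Polynomial

section Def

variable {R : Type*} [CommRing R]

/-- the Lucas sequence `L₀ = 2, L₁ = s, L_{k+2} = s L_{k+1} - e L_k`. -/
def lucas (s e : R) : ℕ → R
  | 0 => 2
  | 1 => s
  | (k + 2) => s * lucas s e (k + 1) - e * lucas s e k

@[simp] theorem lucas_zero (s e : R) : lucas s e 0 = 2 := rfl
@[simp] theorem lucas_one (s e : R) : lucas s e 1 = s := rfl
theorem lucas_succ_succ (s e : R) (k : ℕ) :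
    lucas s e (k + 2) = s * lucas s e (k + 1) - e * lucas s e k := rfl

theorem map_lucas {S : Type*} [CommRing S] (f : R →+* S) (s e : R) (k : ℕ) :
    f (lucas s e k) = lucas (f s) (f e) k := by
  induction k using Nat.twoStepInduction with
  | zero => simp [map_ofNat]
  | one => simp
  | more k h1 h2 => rw [lucas_succ_succ, lucas_succ_succ, map_sub, map_mul, map_mul, h1, h2]

theorem cayley_two' (M : Matrix (Fin 2) (Fin 2) R) :
    M * M = M.trace • M - M.det • (1 : Matrix (Fin 2) (Fin 2) R) := by
  ext i j
  fin_cases i <;> fin_cases j <;>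
    simp [Matrix.mul_apply, Fin.sum_univ_two, Matrix.trace_fin_two, Matrix.det_fin_two] <;> ring

theorem trace_pow_eq_lucas (M : Matrix (Fin 2) (Fin 2) R) (k : ℕ) :
    (M ^ k).trace = lucas M.trace M.det k := by
  induction k using Nat.twoStepInduction with
  | zero => simp [Matrix.trace_fin_two]
  | one => simp
  | more k h1 h2 =>
    have : M ^ (k + 2) = M.trace • M ^ (k + 1) - M.det • M ^ k := by
      rw [pow_add, pow_two, cayley_two', mul_sub, mul_smul_comm, mul_smul_comm, mul_one,
        ← pow_succ]
    rw [this, Matrix.trace_sub, Matrix.trace_smul, Matrix.trace_smul, h1, h2, lucas_succ_succ]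
    simp

/-- The trace of a power of an endomorphism of a free module of rank two. -/
theorem trace_pow_of_charpoly {V : Type*} [AddCommGroup V] [Module R V] [Module.Free R V]
    [Module.Finite R V] [Nontrivial R] (hV : Module.finrank R V = 2) (f : Module.End R V) (s e : R)
    (hf : LinearMap.charpoly f = X ^ 2 - C s * X + C e) (k : ℕ) :
    LinearMap.trace R V (f ^ k) = lucas s e k := by
  classical
  let b : Basis (Fin 2) R V := Module.finBasisOfFinrankEq R V hV
  set M := LinearMap.toMatrix b b f with hM
  have h1 : M.charpoly = X ^ 2 - C s * X + C e := by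
    rw [hM, LinearMap.charpoly_toMatrix, hf]
  rw [Matrix.charpoly_fin_two] at h1
  have hs : M.trace = s := by
    have := congrArg (fun P => Polynomial.coeff P 1) h1
    simpa [Polynomial.coeff_X, Polynomial.coeff_C, Polynomial.coeff_X_pow] using this
  have he : M.det = e := by
    have := congrArg (fun P => Polynomial.coeff P 0) h1
    simpa [Polynomial.coeff_X, Polynomial.coeff_C, Polynomial.coeff_X_pow] using this
  rw [LinearMap.trace_eq_matrix_trace R b, ← LinearMap.toMatrix_pow, trace_pow_eq_lucas, hs, he]

end Def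

section Ring

variable {R : Type*} [CommRing R] {E : Type*} [Ring E]

/-- In a (non commutative) ring: if `a² - s a + e = 0` then `a ^ k + (s - a) ^ k = L_k(s, e)`. -/
theorem pow_add_pow_eq_lucas (Θ : R →+* E) (a : E) (hc : ∀ x, a * Θ x = Θ x * a) (s e : R)
    (h : a * a - Θ s * a + Θ e = 0) (k : ℕ) :
    a ^ k + (Θ s - a) ^ k = Θ (lucas s e k) := by
  have ha : a * a = Θ s * a - Θ e := by
    have : a * a = (a * a - Θ s * a + Θ e) + (Θ s * a - Θ e) := by abel
    rw [this, h, zero_add]
  have hb : (Θ s - a) * (Θ s - a) = Θ s * (Θ s - a) - Θ e := by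
    rw [sub_mul, mul_sub a, ha, hc]
    abel
  induction k using Nat.twoStepInduction with
  | zero => simp [map_ofNat]; norm_num
  | one => simp
  | more k h1 h2 =>
    rw [lucas_succ_succ, map_sub, map_mul, map_mul, ← h1, ← h2, add_comm k 2, pow_add, pow_add,
      pow_two, pow_two, ha, hb, add_comm k 1, pow_add, pow_add, pow_one, pow_one]
    noncomm_ring

/-- The companion root: `(s - a) * a = e`. -/
theorem sub_mul_self_eq (Θ : R →+* E) (a : E) (s e : R)
    (h : a * a - Θ s * a + Θ e = 0) : (Θ s - a) * a = Θ e := by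
  have : (Θ s - a) * a = Θ e - (a * a - Θ s * a + Θ e) := by
    rw [sub_mul]; abel
  rw [this, h, sub_zero]

end Ring

end Fermat.Agent.ES.S31
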