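import Mathlib
import Fermat.Agent.ES.S31.Lucas

/-!
# ES chain, S31 glue : the two sides of the trace comparison
-/

set_option autoImplicit false

namespace Fermat.Agent.ES.S31

open Module Polynomial

section ESide

variable {p : ℕ} [Fact p.Prime] {Λ : Type*} [AddCommGroup Λ] [Module ℤ_[p] Λ]

/-- `f ≡ 0 mod p ^ n`. -/
def DivBy (n : ℕ) (f : Module.End ℤ_[p] Λ) : Prop := ∀ v, ∃ w, f v = (p : ℤ_[p]) ^ n • w

theorem DivBy.add {n : ℕ} {f g : Module.End ℤ_[p] Λ} (hf : DivBy n f) (hg : DivBy n g) :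
    DivBy n (f + g) := by
  intro v
  obtain ⟨w, hw⟩ := hf v
  obtain ⟨w', hw'⟩ := hg v
  exact ⟨w + w', by rw [LinearMap.add_apply, hw, hw', smul_add]⟩

theorem DivBy.neg {n : ℕ} {f : Module.End ℤ_[p] Λ} (hf : DivBy n f) : DivBy n (-f) := by
  intro v
  obtain ⟨w, hw⟩ := hf v
  exact ⟨-w, by rw [LinearMap.neg_apply, hw, smul_neg]⟩

theorem DivBy.sub {n : ℕ} {f g : Module.End ℤ_[p] Λ} (hf : DivBy n f) (hg : DivBy n g) :
    DivBy n (f - g) := by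
  rw [sub_eq_add_neg]; exact hf.add hg.neg

theorem DivBy.mul_left {n : ℕ} {f : Module.End ℤ_[p] Λ} (hf : DivBy n f)
    (g : Module.End ℤ_[p] Λ) : DivBy n (g * f) := by
  intro v
  obtain ⟨w, hw⟩ := hf v
  exact ⟨g w, by rw [Module.End.mul_apply, hw, map_smul]⟩

theorem DivBy.mul_right {n : ℕ} {f : Module.End ℤ_[p] Λ} (hf : DivBy n f)
    (g : Module.End ℤ_[p] Λ) : DivBy n (f * g) := fun v => hf (g v)

theorem DivBy.smul {n : ℕ} {f : Module.End ℤ_[p] Λ} (hf : DivBy n f) (a : ℤ_[p]) :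
    DivBy n (a • f) := by
  intro v
  obtain ⟨w, hw⟩ := hf v
  exact ⟨a • w, by rw [LinearMap.smul_apply, hw, smul_comm]⟩

theorem divBy_smul_of_mem {n : ℕ} {a : ℤ_[p]} (ha : a ∈ (Ideal.span {(p : ℤ_[p]) ^ n} : Ideal ℤ_[p]))
    (f : Module.End ℤ_[p] Λ) : DivBy n (a • f) := by
  obtain ⟨c, rfl⟩ := Ideal.mem_span_singleton.mp ha
  intro v
  exact ⟨c • f v, by rw [LinearMap.smul_apply, mul_smul]⟩

variable {G : Type*} [Group G] (ρ : G →* Module.End ℤ_[p] Λ) (ε : G →* ℤ_[p]ˣ)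

/-- `ρ(g) + ε(g) ρ(g)⁻¹`: the "trace" of `g` on the Eichler-Shimura module. -/
noncomputable def tauE (g : G) : Module.End ℤ_[p] Λ := ρ g + ((ε g : ℤ_[p]ˣ) : ℤ_[p]) • ρ g⁻¹

theorem divBy_sub_of_inv_mul {n : ℕ} {g h : G} (hgh : DivBy n (ρ (h⁻¹ * g) - 1)) :
    DivBy n (ρ g - ρ h) := by
  have : ρ g - ρ h = ρ h * (ρ (h⁻¹ * g) - 1) := by
    rw [mul_sub, ← map_mul, mul_one, mul_inv_cancel_left]
  rw [this]
  exact hgh.mul_left _

theorem tauE_congr {n : ℕ} {g h : G} (h1 : DivBy n (ρ g - ρ h))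
    (h2 : ((ε g : ℤ_[p]ˣ) : ℤ_[p]) - ((ε h : ℤ_[p]ˣ) : ℤ_[p]) ∈
      (Ideal.span {(p : ℤ_[p]) ^ n} : Ideal ℤ_[p])) :
    DivBy n (tauE ρ ε g - tauE ρ ε h) := by
  have h3 : ρ g⁻¹ - ρ h⁻¹ = - (ρ g⁻¹ * (ρ g - ρ h) * ρ h⁻¹) := by
    have e1 : ρ g⁻¹ * ρ g = 1 := by rw [← map_mul, inv_mul_cancel, map_one]
    have e2 : ρ h * ρ h⁻¹ = 1 := by rw [← map_mul, mul_inv_cancel, map_one]
    rw [mul_sub, sub_mul, e1, one_mul, mul_assoc, e2, mul_one]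
    abel
  have : tauE ρ ε g - tauE ρ ε h = (ρ g - ρ h) + ((ε g : ℤ_[p]ˣ) : ℤ_[p]) • (ρ g⁻¹ - ρ h⁻¹)
      + (((ε g : ℤ_[p]ˣ) : ℤ_[p]) - ((ε h : ℤ_[p]ˣ) : ℤ_[p])) • ρ h⁻¹ := by
    unfold tauE
    rw [smul_sub, sub_smul]
    abel
  rw [this, h3]
  exact (h1.add (((h1.mul_left _).mul_right _).neg.smul _)).add (divBy_smul_of_mem h2 _)

theorem tauE_mul_of_trivial (g τ : G) (h1 : ρ τ = 1) (h2 : ε τ = 1) :
    tauE ρ ε (g * τ) = tauE ρ ε g := by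
  have h3 : ρ τ⁻¹ = 1 := by
    have : ρ τ * ρ τ⁻¹ = 1 := by rw [← map_mul, mul_inv_cancel, map_one]
    rwa [h1, one_mul] at this
  unfold tauE
  rw [map_mul, map_mul, h1, h2, mul_one, mul_one, mul_inv_rev, map_mul, h3, one_mul]

variable {X : Type*} [CommRing X] (ΘΛ : X →+* Module.End ℤ_[p] Λ)

theorem theta_lucas_eq_tauE (σ : G) (s : X) (ℓ : ℕ) (hε : ((ε σ : ℤ_[p]ˣ) : ℤ_[p]) = ℓ)
    (hcomm : ∀ x, ρ σ * ΘΛ x = ΘΛ x * ρ σ)
    (h : ρ σ * ρ σ - ΘΛ s * ρ σ + (ℓ : ℤ_[p]) • 1 = 0) (k : ℕ) :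
    ΘΛ (lucas s (ℓ : X) k) = tauE ρ ε (σ ^ k) := by
  have hℓ : ΘΛ (ℓ : X) = (ℓ : ℤ_[p]) • (1 : Module.End ℤ_[p] Λ) := by
    rw [map_natCast, Nat.cast_smul_eq_nsmul, nsmul_one]
  rw [← hℓ] at h
  rw [← pow_add_pow_eq_lucas ΘΛ (ρ σ) hcomm s (ℓ : X) h k]
  have h1 := sub_mul_self_eq ΘΛ (ρ σ) s (ℓ : X) h
  have h2 : ΘΛ s - ρ σ = (ℓ : ℤ_[p]) • ρ σ⁻¹ := by
    have h3 : (ΘΛ s - ρ σ) * ρ σ * ρ σ⁻¹ = ΘΛ (ℓ : X) * ρ σ⁻¹ := by rw [h1]
    rw [mul_assoc, ← map_mul, mul_inv_cancel, map_one, mul_one, hℓ, smul_mul_assoc, one_mul] at h3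
    exact h3
  unfold tauE
  rw [h2, _root_.smul_pow, map_pow, map_pow, Units.val_pow_eq_pow_val, hε, ← inv_pow, map_pow]

end ESide

section HSide

variable {A : Type*} [CommRing A] {V : Type*} [AddCommGroup V] [Module A V] [Module.Free A V]
  [Module.Finite A V]

omit [Module.Free A V] [Module.Finite A V] in
theorem linearMap_mem_of_mem_smul_top (I : Ideal A) (φ : V →ₗ[A] A) {v : V}
    (hv : v ∈ I • (⊤ : Submodule A V)) : φ v ∈ I := by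
  induction hv using Submodule.smul_induction_on' with
  | smul r hr n _ => rw [map_smul, smul_eq_mul]; exact I.mul_mem_right _ hr
  | add x _ y _ hx hy => rw [map_add]; exact I.add_mem hx hy

theorem trace_mem_of_forall_mem (I : Ideal A) (f : Module.End A V)
    (hf : ∀ v, f v ∈ I • (⊤ : Submodule A V)) : LinearMap.trace A V f ∈ I := by
  classical
  let b := Module.Free.chooseBasis A V
  rw [LinearMap.trace_eq_matrix_trace A b, Matrix.trace]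
  refine I.sum_mem fun i _ => ?_
  rw [Matrix.diag_apply, LinearMap.toMatrix_apply]
  exact linearMap_mem_of_mem_smul_top I (b.coord i) (hf (b i))

variable {G : Type*} [Group G] (ρ : G →* Module.End A V)

theorem trace_sub_mem_of_inv_mul (I : Ideal A) {g h : G}
    (hgh : ∀ v, ρ (h⁻¹ * g) v - v ∈ I • (⊤ : Submodule A V)) :
    LinearMap.trace A V (ρ g) - LinearMap.trace A V (ρ h) ∈ I := by
  rw [← map_sub]
  refine trace_mem_of_forall_mem I _ fun v => ?_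
  have : (ρ g - ρ h) v = ρ h (ρ (h⁻¹ * g) v - v) := by
    rw [map_sub, ← Module.End.mul_apply, ← map_mul, mul_inv_cancel_left, LinearMap.sub_apply]
  rw [this]
  have h1 := Submodule.mem_map_of_mem (f := ρ h) (hgh v)
  rw [Submodule.map_smul''] at h1
  exact Submodule.smul_mono le_rfl le_top h1

end HSide

end Fermat.Agent.ES.S31
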