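import Mathlib
import Fermat.Prelude.Def_GaloisRep_Adic
import Fermat.Agent.S53.Burnside

/-!
# ES chain, S31 glue (part D): Burnside + Nakayama + perfectness of the trace form
-/

set_option autoImplicit false

namespace Fermat.Agent.ES.S31

open Module

section Mat

variable {A : Type*} [CommRing A] {n : Type*} [Fintype n] [DecidableEq n]

theorem mem_smul_top_of_entries (I : Ideal A) (R : Matrix n n A) (h : ∀ i j, R i j ∈ I) :
    R ∈ I • (⊤ : Submodule A (Matrix n n A)) := by
  rw [Matrix.matrix_eq_sum_single R]
  refine Submodule.sum_mem _ fun i _ => Submodule.sum_mem _ fun j _ => ?_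
  have : Matrix.single i j (R i j) = R i j • Matrix.single i j (1 : A) := by
    rw [Matrix.smul_single, smul_eq_mul, mul_one]
  rw [this]
  exact Submodule.smul_mem_smul (h i j) Submodule.mem_top

variable [IsLocalRing A]

theorem span_eq_top_of_residue {ι : Type*} (f : ι → Matrix n n A)
    (h : Submodule.span (IsLocalRing.ResidueField A)
      (Set.range fun i => (f i).map (IsLocalRing.residue A)) = ⊤) :
    Submodule.span A (Set.range f) = ⊤ := by
  set W := Submodule.span A (Set.range f) with hW
  have key : ∀ y : Matrix n n (IsLocalRing.ResidueField A),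
      ∃ w ∈ W, w.map (IsLocalRing.residue A) = y := by
    intro y
    have hy : y ∈ Submodule.span (IsLocalRing.ResidueField A)
      (Set.range fun i => (f i).map (IsLocalRing.residue A)) := by rw [h]; exact Submodule.mem_top
    induction hy using Submodule.span_induction with
    | mem y hy =>
      obtain ⟨i, rfl⟩ := hy
      exact ⟨f i, Submodule.subset_span ⟨i, rfl⟩, rfl⟩
    | zero => exact ⟨0, Submodule.zero_mem _, by simp⟩
    | add y z _ _ hy hz =>
      obtain ⟨w, hw, rfl⟩ := hy
      obtain ⟨w', hw', rfl⟩ := hz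
      exact ⟨w + w', Submodule.add_mem _ hw hw', by simp [Matrix.map_add]⟩
    | smul c y _ hy =>
      obtain ⟨w, hw, rfl⟩ := hy
      obtain ⟨c, rfl⟩ := IsLocalRing.residue_surjective c
      refine ⟨c • w, Submodule.smul_mem _ _ hw, ?_⟩
      ext i j
      simp
  rw [eq_top_iff]
  refine Submodule.le_of_le_smul_of_le_jacobson_bot (I := IsLocalRing.maximalIdeal A)
    (Module.Finite.fg_top) ?_ ?_
  · rw [IsLocalRing.jacobson_eq_maximalIdeal ⊥ bot_ne_top]
  · intro x _
    obtain ⟨w, hw, hwx⟩ := key (x.map (IsLocalRing.residue A))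
    have hx : x = w + (x - w) := by abel
    rw [hx]
    refine Submodule.add_mem_sup hw (mem_smul_top_of_entries _ _ fun i j => ?_)
    have := congrFun (congrFun hwx i) j
    rw [Matrix.map_apply, Matrix.map_apply] at this
    rw [Matrix.sub_apply, ← IsLocalRing.residue_eq_zero_iff, map_sub, this, sub_self]

theorem eq_of_trace_mul_eq {ι : Type*} (f : ι → Matrix n n A)
    (h : Submodule.span (IsLocalRing.ResidueField A)
      (Set.range fun i => (f i).map (IsLocalRing.residue A)) = ⊤) (u v : Matrix n n A)
    (huv : ∀ i, (f i * u).trace = (f i * v).trace) : u = v := by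
  rw [Matrix.ext_iff_trace_mul_left]
  intro x
  have hx : x ∈ Submodule.span A (Set.range f) := by
    rw [span_eq_top_of_residue f h]; exact Submodule.mem_top
  induction hx using Submodule.span_induction with
  | mem y hy => obtain ⟨i, rfl⟩ := hy; exact huv i
  | zero => simp
  | add y z _ _ hy hz => rw [add_mul, add_mul, Matrix.trace_add, Matrix.trace_add, hy, hz]
  | smul c y _ hy => rw [Matrix.smul_mul, Matrix.smul_mul, Matrix.trace_smul, Matrix.trace_smul, hy]

end Mat

section Gal

theorem span_range_equiv_eq_top {k M M' : Type*} [Semiring k] [AddCommMonoid M] [AddCommMonoid M']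
    [Module k M] [Module k M'] (e : M ≃ₗ[k] M') {ι : Type*} (f : ι → M)
    (h : Submodule.span k (Set.range f) = ⊤) :
    Submodule.span k (Set.range fun i => e (f i)) = ⊤ := by
  have h1 := congrArg (Submodule.map e.toLinearMap) h
  rw [Submodule.map_span, Submodule.map_top, LinearEquiv.range, ← Set.range_comp] at h1
  exact h1

variable {A : Type} [CommRing A] [IsLocalRing A]

local notation "Γℚ" => (AlgebraicClosure ℚ ≃ₐ[ℚ] AlgebraicClosure ℚ)

/-- If the residual representation is absolutely irreducible and `tr ρ(g τ) = tr ρ(g)` for all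
`g`, then `ρ(τ) = 1`. -/
theorem eq_one_of_trace_mul_eq (ρ : GaloisRepAdic A)
    (habs : ρ.residual.IsAbsolutelyIrreducible) (τ : Γℚ)
    (h : ∀ g : Γℚ, LinearMap.trace A ρ.V (ρ.ρ (g * τ)) = LinearMap.trace A ρ.V (ρ.ρ g)) :
    ρ.ρ τ = 1 := by
  classical
  let b : Basis (Fin 2) A ρ.V := Module.finBasisOfFinrankEq A ρ.V ρ.finrank_eq
  let bk : Basis (Fin 2) (IsLocalRing.ResidueField A) (TensorProduct A (IsLocalRing.ResidueField A) ρ.V) :=
    Algebra.TensorProduct.basis (IsLocalRing.ResidueField A) b
  have hspan := Fermat.Agent.S53.span_range_eq_top ρ.residual habs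
  have hM : ∀ g, LinearMap.toMatrix bk bk (ρ.residual.ρ g) =
      (LinearMap.toMatrix b b (ρ.ρ g)).map (IsLocalRing.residue A) := fun g =>
    LinearMap.toMatrix_baseChange (IsLocalRing.ResidueField A) (ρ.ρ g) b b
  have hspan' : Submodule.span (IsLocalRing.ResidueField A)
      (Set.range fun g : Γℚ => (LinearMap.toMatrix b b (ρ.ρ g)).map (IsLocalRing.residue A))
        = ⊤ := by
    have h1 := span_range_equiv_eq_top (LinearMap.toMatrix bk bk) (fun g => ρ.residual.ρ g) hspan
    rw [← h1]
    congr 2
    funext g
    exact (hM g).symm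
  have key := eq_of_trace_mul_eq (fun g : Γℚ => LinearMap.toMatrix b b (ρ.ρ g)) hspan'
    (LinearMap.toMatrix b b (ρ.ρ τ)) 1 (fun g => by
      have := h g
      rw [LinearMap.trace_eq_matrix_trace A b, LinearMap.trace_eq_matrix_trace A b, map_mul,
        LinearMap.toMatrix_mul] at this
      rw [this, mul_one])
  apply (LinearMap.toMatrix b b).injective
  rw [key, LinearMap.toMatrix_one]

end Gal

end Fermat.Agent.ES.S31
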