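import Mathlib
import Fermat.Prelude.Def_CuspForm_HeckeGaloisRepDatum
import Fermat.Agent.FD.Interface
import Fermat.Agent.ES.RepInterface
import Fermat.Agent.ES.RepGalois
import Fermat.Agent.ES.S31.Faithful
import Fermat.Agent.ES.S31.Sides
import Fermat.Agent.ES.S31.Span

/-!
# ES chain, S31 glue : assembly

`S31_of : FD.Stmt_FD → Rep.Stmt_ES → (frozen statement S31)`.
-/

set_option autoImplicit false

namespace Fermat.Agent.ES.S31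

open Module Polynomial Fermat.Agent.ES.Rep Fermat.Agent.ES.RepGalois

theorem inv_mul_fixes {L : IntermediateField ℚ (AlgebraicClosure ℚ)} {g h : GQ}
    (hgh : ∀ x ∈ L, g x = h x) : ∀ x ∈ L, (h⁻¹ * g) x = x := by
  intro x hx
  rw [AlgEquiv.mul_apply, hgh x hx]
  exact h.symm_apply_apply x

/-- an integer prime to `p` is a unit in a local ring of residue characteristic `p`. -/
theorem isUnit_intCast_of_not_dvd {T : Type*} [CommRing T] [IsLocalRing T] {p : ℕ} (hp : p.Prime)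
    (hpT : (p : T) ∈ IsLocalRing.maximalIdeal T) {e : ℤ} (he : ¬ (p : ℤ) ∣ e) :
    IsUnit (e : T) := by
  have hcop : IsCoprime (p : ℤ) e :=
    (Prime.coprime_iff_not_dvd (Nat.prime_iff_prime_int.mp hp)).mpr he
  obtain ⟨u, v, huv⟩ := hcop
  have h1 : (u : T) * (p : T) + (v : T) * (e : T) = 1 := by exact_mod_cast congrArg (Int.cast : ℤ → T) huv
  by_contra hne
  have h2 : (e : T) ∈ IsLocalRing.maximalIdeal T := (IsLocalRing.mem_maximalIdeal _).mpr hne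
  have h3 : (1 : T) ∈ IsLocalRing.maximalIdeal T := by
    rw [← h1]
    exact Ideal.add_mem _ (Ideal.mul_mem_left _ _ hpT) (Ideal.mul_mem_left _ _ h2)
  exact (Ideal.ne_top_iff_one _).mp (IsLocalRing.maximalIdeal.isMaximal T).ne_top h3

variable {p : ℕ} {N : ℕ} [NeZero N] {S : Finset ℕ}
  {𝒪 : Type} [CommRing 𝒪] [IsDomain 𝒪] [IsDiscreteValuationRing 𝒪]
  [IsAdicComplete (IsLocalRing.maximalIdeal 𝒪) 𝒪]
  {θ : CuspForm.heckeAlgebra N 2 (↑S : Set ℕ) →+* IsLocalRing.ResidueField 𝒪}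
  {T : Type} [CommRing T] [IsLocalRing T] [IsNoetherianRing T]
  [IsAdicComplete (IsLocalRing.maximalIdeal T) T] [Algebra 𝒪 T] [IsLocalHom (algebraMap 𝒪 T)]
  [Module.Finite 𝒪 T] [Module.Free 𝒪 T]

/-- The key congruence. -/
theorem trace_congr (hFD : FD.Stmt_FD) [Fact p.Prime] (E : ESModule p N (↑S : Set ℕ))
    (hpT : (p : T) ∈ IsLocalRing.maximalIdeal T) (hpS : p ∈ S)
    (hNS : ∀ q : ℕ, q.Prime → q ∣ N → q ∈ S)
    (H : CuspForm.HeckeGaloisRepDatum N (↑S : Set ℕ) 𝒪 θ T)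
    (τ₀ : GQ) (hτE : E.ρ τ₀ = 1) (hτε : eps p τ₀ = 1) (g : GQ) (n : ℕ) :
    LinearMap.trace T H.ρ.V (H.ρ.ρ (g * τ₀)) - LinearMap.trace T H.ρ.V (H.ρ.ρ g) ∈
      IsLocalRing.maximalIdeal T ^ n := by
  have hp : p.Prime := Fact.out
  obtain ⟨c, e, he, hfaith⟩ :=
    exists_quasi_faithful E.isBaseChange E.Θ E.Θ_injective E.ΘΛ E.ΘΛ_ι
  obtain ⟨L₁, hL₁, h₁⟩ := H.ρ.isAdicContinuous n
  obtain ⟨L₂, hL₂, h₂⟩ := E.continuous (n + c)
  obtain ⟨L₃, hL₃, h₃⟩ := eps_level' p (n + c)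
  obtain ⟨L, hL, hLn, hLle⟩ := exists_normal_ge (L₁ ⊔ L₂ ⊔ L₃) inferInstance
  have hle₁ : L₁ ≤ L := le_trans (le_trans le_sup_left le_sup_left) hLle
  have hle₂ : L₂ ≤ L := le_trans (le_trans le_sup_right le_sup_left) hLle
  have hle₃ : L₃ ≤ L := le_trans le_sup_right hLle
  -- the statement for one element
  have one : ∀ g : GQ, ∃ x : CuspForm.heckeAlgebra N 2 (↑S : Set ℕ),
      DivBy (n + c) (tauE E.ρ (eps p) g - E.ΘΛ x) ∧
      LinearMap.trace T H.ρ.V (H.ρ.ρ g) - H.π x ∈ IsLocalRing.maximalIdeal T ^ n := by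
    intro g
    obtain ⟨ℓ, A, σ, k, -, hℓ, hℓS, hA, hσ, hgσ, -⟩ := hFD L g S
    have hℓS' : ℓ ∉ (↑S : Set ℕ) := by simpa using hℓS
    have hℓN : ¬ ℓ ∣ N := fun h => hℓS (hNS ℓ hℓ h)
    have hℓp : ℓ ≠ p := fun h => hℓS (h ▸ hpS)
    refine ⟨lucas (CuspForm.heckeAlgebra.T hℓ hℓN hℓS') (ℓ : CuspForm.heckeAlgebra N 2 (↑S : Set ℕ)) k,
      ?_, ?_⟩
    · rw [theta_lucas_eq_tauE E.ρ (eps p) E.ΘΛ σ _ ℓ (eps_frob p hℓ hℓp hA hσ)
        (fun x => E.comm σ x) (E.eichlerShimura ℓ hℓ hℓN hℓS' hℓp A hA σ hσ) k]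
      refine tauE_congr E.ρ (eps p) (divBy_sub_of_inv_mul E.ρ ?_)
        (h₃ _ _ fun x hx => hgσ x (hle₃ hx))
      intro v
      obtain ⟨w, hw⟩ := h₂ _ (inv_mul_fixes fun x hx => hgσ x (hle₂ hx)) v
      exact ⟨w, by rw [LinearMap.sub_apply, Module.End.one_apply, hw]⟩
    · rw [map_lucas, map_natCast, ← trace_pow_of_charpoly H.ρ.finrank_eq (H.ρ.ρ σ) _ _
        (H.charpoly_frob ℓ hℓ hℓN hℓS' A hA σ hσ) k, ← map_pow]
      exact trace_sub_mem_of_inv_mul H.ρ.ρ _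
        (h₁ _ (inv_mul_fixes fun x hx => hgσ x (hle₁ hx)))
  obtain ⟨x₁, hx₁, hx₁'⟩ := one g
  obtain ⟨x₂, hx₂, hx₂'⟩ := one (g * τ₀)
  rw [tauE_mul_of_trivial E.ρ (eps p) g τ₀ hτE hτε] at hx₂
  have hdiv : DivBy (n + c) (E.ΘΛ (x₂ - x₁)) := by
    have : E.ΘΛ (x₂ - x₁) = (tauE E.ρ (eps p) g - E.ΘΛ x₁) - (tauE E.ρ (eps p) g - E.ΘΛ x₂) := by
      rw [map_sub]; abel
    rw [this]
    exact hx₁.sub hx₂
  obtain ⟨x', hx'⟩ := hfaith (x₂ - x₁) n hdiv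
  have hπ : H.π (x₂ - x₁) ∈ IsLocalRing.maximalIdeal T ^ n := by
    have h4 := congrArg H.π hx'
    rw [map_zsmul, map_zsmul, zsmul_eq_mul, zsmul_eq_mul] at h4
    have h5 : (e : T) * H.π (x₂ - x₁) ∈ IsLocalRing.maximalIdeal T ^ n := by
      rw [h4]
      refine Ideal.mul_mem_right _ _ ?_
      push_cast
      exact Ideal.pow_mem_pow hpT n
    obtain ⟨u, hu⟩ := isUnit_intCast_of_not_dvd hp hpT he
    have h6 : H.π (x₂ - x₁) = (↑u⁻¹ : T) * ((e : T) * H.π (x₂ - x₁)) := by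
      rw [← mul_assoc, ← hu, Units.inv_mul, one_mul]
    rw [h6]
    exact Ideal.mul_mem_left _ _ h5
  have : LinearMap.trace T H.ρ.V (H.ρ.ρ (g * τ₀)) - LinearMap.trace T H.ρ.V (H.ρ.ρ g) =
      (LinearMap.trace T H.ρ.V (H.ρ.ρ (g * τ₀)) - H.π x₂) -
        (LinearMap.trace T H.ρ.V (H.ρ.ρ g) - H.π x₁) + H.π (x₂ - x₁) := by
    rw [map_sub]; ring
  rw [this]
  exact Ideal.add_mem _ (Ideal.sub_mem _ hx₂' hx₁') hπ

/-- **S31**, from Frobenius density and the Eichler-Shimura module. -/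
theorem S31_of (hFD : FD.Stmt_FD) (hES : Stmt_ES) (hp : p.Prime)
    (hp𝒪 : (p : 𝒪) ∈ IsLocalRing.maximalIdeal 𝒪) (hpS : p ∈ S)
    (hNS : ∀ q : ℕ, q.Prime → q ∣ N → q ∈ S)
    (H : CuspForm.HeckeGaloisRepDatum N (↑S : Set ℕ) 𝒪 θ T)
    (q : ℕ) (hq : q.Prime) (hqS : q ∉ S) :
    H.ρ.IsUnramifiedAt q := by
  have : Fact p.Prime := ⟨hp⟩
  obtain ⟨E⟩ := hES p N S hpS hNS
  have hpT : (p : T) ∈ IsLocalRing.maximalIdeal T := by
    have h1 : (p : T) = algebraMap 𝒪 T (p : 𝒪) := by rw [map_natCast]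
    rw [h1]
    exact map_nonunit (algebraMap 𝒪 T) _ hp𝒪
  have hqN : ¬ q ∣ N := fun h => hqS (hNS q hq h)
  have hqp : q ≠ p := fun h => hqS (h ▸ hpS)
  intro P hP τ₀ hτ₀
  refine eq_one_of_trace_mul_eq H.ρ H.residual_absIrr τ₀ fun g => ?_
  rw [← sub_eq_zero]
  have hK := Ideal.iInf_pow_eq_bot_of_isLocalRing (IsLocalRing.maximalIdeal T)
    (IsLocalRing.maximalIdeal.isMaximal T).ne_top
  rw [← Ideal.mem_bot, ← hK, Ideal.mem_iInf]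
  intro n
  exact trace_congr hFD E hpT hpS hNS H τ₀ (E.unramified q hq hqN hqp P hP τ₀ hτ₀)
    (eps_inertia p hq hqp hP hτ₀) g n

end Fermat.Agent.ES.S31
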